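/-
S15, block A, LAMBDA (helper17): the logarithmic derivative of the reduction.

For `s ∈ ℚ̄((q))` of the form `s = c * x / y`, `c ∈ ℚ̄ˣ`, `x, y ∈ A((q))` with nonzero reductions
`x̄, ȳ ∈ k((q))`, put `Λ(s) = θ(x̄)/x̄ - θ(ȳ)/ȳ`, `θ = q d/dq`.  `HasLam A s t` says `Λ(s) = t`.
-/
import Fermat.Agent.Lib.Theta.Basic
import Fermat.Agent.GAL.E.Defs

set_option autoImplicit false

noncomputable section

namespace Fermat.Agent.S15.A

open ModularCurve AlgebraicCurve Fermat.Agent.S24 Fermat.Agent.GAL.E Fermat.Agent.Lib.Theta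

/-- the logarithmic derivative `θ f / f`. -/
def dl {k : Type*} [Field k] (f : LaurentSeries k) : LaurentSeries k := theta f / f

/-- the residue field of `A`. -/
abbrev kk (A : ValuationSubring Kbar) : Type := IsLocalRing.ResidueField A

/-- `Λ(s) = t`. -/
def HasLam (A : ValuationSubring Kbar) (s : LaurentSeries Kbar) (t : LaurentSeries (kk A)) : Prop :=
  ∃ (c : Kbar) (x y : LaurentSeries A), c ≠ 0 ∧ red A x ≠ 0 ∧ red A y ≠ 0 ∧
    s * incl A y = HahnSeries.C c * incl A x ∧ t = dl (red A x) - dl (red A y)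

end Fermat.Agent.S15.A

end
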