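/-
S15, block A, LAMBDA (helper17): calculus of `dl f = θ f / f` over a field.
-/
import Fermat.Agent.S15.A.Lam.Defs

set_option autoImplicit false

noncomputable section

namespace Fermat.Agent.S15.A

open ModularCurve Fermat.Agent.Lib.Theta

variable {k : Type*} [Field k]

theorem dl_mul {f g : LaurentSeries k} (hf : f ≠ 0) (hg : g ≠ 0) : dl (f * g) = dl f + dl g := by
  rw [dl, dl, dl, Derivation.leibniz, smul_eq_mul, smul_eq_mul]
  field_simp
  ring

theorem dl_one : dl (1 : LaurentSeries k) = 0 := by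
  rw [dl, Derivation.map_one_eq_zero, zero_div]

theorem dl_C (c : k) : dl (HahnSeries.C c : LaurentSeries k) = 0 := by
  rw [dl, ← algebraMap_eq_C, theta_algebraMap, zero_div]

theorem dl_C_mul {c : k} (hc : c ≠ 0) (f : LaurentSeries k) :
    dl (HahnSeries.C c * f) = dl f := by
  rcases eq_or_ne f 0 with rfl | hf
  · rw [mul_zero]
  · have hC : (HahnSeries.C c : LaurentSeries k) ≠ 0 := by
      rw [Ne, map_eq_zero]
      exact hc
    rw [dl_mul hC hf, dl_C, zero_add]

theorem dl_pow {f : LaurentSeries k} (hf : f ≠ 0) (n : ℕ) : dl (f ^ n) = n • dl f := by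
  induction n with
  | zero => rw [pow_zero, dl_one, zero_smul]
  | succ n ih => rw [pow_succ, dl_mul (pow_ne_zero n hf) hf, ih, succ_nsmul]

/-- `dl (q^n) = n`. -/
theorem dl_single (n : ℤ) : dl (HahnSeries.single n (1 : k)) = HahnSeries.C (n : k) := by
  have h1 : (HahnSeries.single n (1 : k) : LaurentSeries k) ≠ 0 :=
    HahnSeries.single_ne_zero one_ne_zero
  rw [dl, theta_single, div_eq_iff h1, HahnSeries.C_mul_eq_smul]
  ext m
  rw [HahnSeries.coeff_smul, HahnSeries.coeff_single, HahnSeries.coeff_single, smul_eq_mul]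
  split_ifs <;> simp

/-- `dl (f(q^d)) = d (dl f)(q^d)`. -/
theorem dl_qExpand (d : ℕ) [NeZero d] (f : LaurentSeries k) :
    dl (qExpand k d f) = (d : LaurentSeries k) * qExpand k d (dl f) := by
  rw [dl, dl, theta_qExpand, map_div₀, mul_div_assoc]

/-- the first two coefficients of `dl f` for `f = 1 + a q + ...`. -/
theorem dl_coeff_of_one_add {f : LaurentSeries k} (h : ∀ n : ℤ, n < 0 → f.coeff n = 0)
    (h0 : f.coeff 0 = 1) :
    (∀ n : ℤ, n ≤ 0 → (dl f).coeff n = 0) ∧ (dl f).coeff 1 = f.coeff 1 := by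
  have hf : f ≠ 0 := by
    intro hf
    rw [hf] at h0
    exact zero_ne_one h0
  have hord : f.order = 0 := by
    apply le_antisymm
    · exact HahnSeries.order_le_of_coeff_ne_zero (by rw [h0]; exact one_ne_zero)
    · exact (HahnSeries.le_order_iff_forall hf).2 h
  have hmul : dl f * f = theta f := by rw [dl, div_mul_cancel₀ _ hf]
  have hc1 : (theta f).coeff 1 = f.coeff 1 := by
    rw [theta_coeff]
    simp
  by_cases hθ : theta f = 0
  · have hdl : dl f = 0 := by rw [dl, hθ, zero_div]
    rw [hθ] at hc1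
    rw [hdl]
    exact ⟨fun n _ => rfl, hc1⟩
  · have hdl : dl f ≠ 0 := by
      intro h1
      rw [h1, zero_mul] at hmul
      exact hθ hmul.symm
    have ho : (theta f).order = (dl f).order := by
      rw [← hmul, HahnSeries.order_mul hdl hf, hord, add_zero]
    have h1le : (1 : ℤ) ≤ (theta f).order := by
      rw [HahnSeries.le_order_iff_forall hθ]
      intro j hj
      rw [theta_coeff]
      rcases lt_or_eq_of_le (Int.lt_add_one_iff.1 (by simpa using hj) : j ≤ 0) with hj' | rfl
      · rw [h j hj', mul_zero]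
      · simp
    refine ⟨fun n hn => HahnSeries.coeff_eq_zero_of_lt_order (by omega), ?_⟩
    rcases eq_or_lt_of_le h1le with heq | hlt
    · have h2 := HahnSeries.coeff_mul_order_add_order (dl f) f
      rw [hmul, hord, add_zero, HahnSeries.leadingCoeff_eq, HahnSeries.leadingCoeff_eq, hord, h0,
        mul_one, ← ho, ← heq, hc1] at h2
      exact h2.symm
    · rw [HahnSeries.coeff_eq_zero_of_lt_order (by omega : (1 : ℤ) < (dl f).order), ← hc1,
        HahnSeries.coeff_eq_zero_of_lt_order hlt]

end Fermat.Agent.S15.A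

end
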