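/-
S15, block A, LAMBDA (helper17): Gauss lemma; `Λ` is well defined.
-/
import Fermat.Agent.S15.A.Lam.DL

set_option autoImplicit false

noncomputable section

namespace Fermat.Agent.S15.A

open ModularCurve Fermat.Agent.S24 Fermat.Agent.GAL.E Fermat.Agent.Lib.Theta

variable {A : ValuationSubring Kbar}

theorem incl_injective : Function.Injective (incl A) := by
  intro x y h
  ext k
  have := congrArg (fun z => HahnSeries.coeff z k) h
  exact this

theorem incl_ne_zero {x : LaurentSeries A} (h : red A x ≠ 0) : incl A x ≠ 0 := by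
  intro h0
  apply h
  have hx : x = 0 := incl_injective (by rw [h0, map_zero])
  rw [hx, map_zero]

/-- a series with nonzero reduction has a unit coefficient. -/
theorem exists_isUnit_coeff {a : LaurentSeries A} (ha : red A a ≠ 0) :
    ∃ n : ℤ, IsUnit (a.coeff n) := by
  by_contra hcon
  push Not at hcon
  apply ha
  ext n
  rw [coeffMap_coeff, HahnSeries.coeff_zero, IsLocalRing.residue_eq_zero_iff]
  exact hcon n

/-- auxiliary: `l a = b`, `ā ≠ 0` implies `l ∈ A`. -/
theorem gauss_mem {l : Kbar} {a b : LaurentSeries A} (ha : red A a ≠ 0)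
    (h : HahnSeries.C l * incl A a = incl A b) : l ∈ A := by
  obtain ⟨n, hn⟩ := exists_isUnit_coeff ha
  obtain ⟨u, hu⟩ := hn
  have h1 := congrArg (fun z => HahnSeries.coeff z n) h
  simp only [HahnSeries.C_mul_eq_smul, HahnSeries.coeff_smul, coeffMap_coeff, smul_eq_mul] at h1
  have h2 : l * ((a.coeff n : A) : Kbar) = ((b.coeff n : A) : Kbar) := h1
  have h3 : ((a.coeff n : A) : Kbar) * (((u⁻¹ : Aˣ) : A) : Kbar) = 1 := by
    rw [← hu]
    have : ((u : A) * ((u⁻¹ : Aˣ) : A) : A) = 1 := u.mul_inv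
    exact_mod_cast congrArg (Subtype.val) this
  have h4 : l = ((b.coeff n * ((u⁻¹ : Aˣ) : A) : A) : Kbar) := by
    push_cast
    rw [← h2, mul_assoc, h3, mul_one]
  rw [h4]
  exact Subtype.property _

/-- if `λ a = b` with `ā, b̄ ≠ 0` then `λ` is a unit of `A` and `b̄ = λ̄ ā`. -/
theorem gauss_const {l : Kbar} {a b : LaurentSeries A} (ha : red A a ≠ 0) (hb : red A b ≠ 0)
    (h : HahnSeries.C l * incl A a = incl A b) :
    ∃ m : kk A, m ≠ 0 ∧ red A b = HahnSeries.C m * red A a := by
  have hl : l ∈ A := gauss_mem ha h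
  have hl0 : l ≠ 0 := by
    rintro rfl
    rw [map_zero, zero_mul] at h
    exact incl_ne_zero hb h.symm
  have h' : HahnSeries.C l⁻¹ * incl A b = incl A a := by
    rw [← h, ← mul_assoc, ← map_mul, inv_mul_cancel₀ hl0, map_one, one_mul]
  have hl' : l⁻¹ ∈ A := gauss_mem hb h'
  have hu : IsUnit (⟨l, hl⟩ : A) :=
    IsUnit.of_mul_eq_one (⟨l⁻¹, hl'⟩ : A) (Subtype.ext (mul_inv_cancel₀ hl0))
  have hC : incl A (HahnSeries.C (⟨l, hl⟩ : A)) = HahnSeries.C l := coeffMap_single _ _ _
  have hb' : b = HahnSeries.C (⟨l, hl⟩ : A) * a := by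
    apply incl_injective
    rw [map_mul, hC, h]
  refine ⟨IsLocalRing.residue A ⟨l, hl⟩, ?_, ?_⟩
  · rw [Ne, IsLocalRing.residue_eq_zero_iff]
    exact fun hh => hh hu
  · have hC' : red A (HahnSeries.C (⟨l, hl⟩ : A)) =
        HahnSeries.C (IsLocalRing.residue A ⟨l, hl⟩) := coeffMap_single _ _ _
    rw [hb', map_mul, hC']

/-- `Λ` is well defined. -/
theorem HasLam.unique {s : LaurentSeries Kbar} {t t' : LaurentSeries (kk A)}
    (h : HasLam A s t) (h' : HasLam A s t') : t = t' := by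
  obtain ⟨c, x, y, hc, hx, hy, e, rfl⟩ := h
  obtain ⟨c', x', y', hc', hx', hy', e', rfl⟩ := h'
  have ha : red A (x * y') ≠ 0 := by
    rw [map_mul]; exact mul_ne_zero hx hy'
  have hb : red A (x' * y) ≠ 0 := by
    rw [map_mul]; exact mul_ne_zero hx' hy
  have key : HahnSeries.C (c / c') * incl A (x * y') = incl A (x' * y) := by
    have hC' : (HahnSeries.C c' : LaurentSeries Kbar) ≠ 0 := by
      rw [Ne, map_eq_zero]; exact hc'
    apply mul_left_cancel₀ hC'
    rw [← mul_assoc, ← map_mul, mul_div_cancel₀ c hc', map_mul, map_mul, ← mul_assoc, ← e,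
      ← mul_assoc, ← e']
    ring
  obtain ⟨m, hm, hred⟩ := gauss_const ha hb key
  have h1 : dl (red A x') + dl (red A y) = dl (red A x) + dl (red A y') := by
    rw [← dl_mul hx' hy, ← dl_mul hx hy', ← map_mul, ← map_mul, hred, dl_C_mul hm]
  have h2 : dl (red A x) - dl (red A y) - (dl (red A x') - dl (red A y')) =
      (dl (red A x) + dl (red A y')) - (dl (red A x') + dl (red A y)) := by ring
  rw [← sub_eq_zero, h2, h1, sub_self]

theorem HasLam.ne_zero {s : LaurentSeries Kbar} {t : LaurentSeries (kk A)} (h : HasLam A s t) :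
    s ≠ 0 := by
  obtain ⟨c, x, y, hc, hx, hy, e, -⟩ := h
  rintro rfl
  rw [zero_mul] at e
  have hC : (HahnSeries.C c : LaurentSeries Kbar) ≠ 0 := by
    rw [Ne, map_eq_zero]; exact hc
  exact mul_ne_zero hC (incl_ne_zero hx) e.symm

end Fermat.Agent.S15.A

end
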