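/-
S15, block A, LAMBDA (helper17): `Λ` is a homomorphism.
-/
import Fermat.Agent.S15.A.Lam.Gauss

set_option autoImplicit false

noncomputable section

namespace Fermat.Agent.S15.A

open ModularCurve Fermat.Agent.S24 Fermat.Agent.GAL.E Fermat.Agent.Lib.Theta

variable {A : ValuationSubring Kbar} {s s' : LaurentSeries Kbar} {t t' : LaurentSeries (kk A)}

theorem HasLam.mul (h : HasLam A s t) (h' : HasLam A s' t') : HasLam A (s * s') (t + t') := by
  obtain ⟨c, x, y, hc, hx, hy, hs, rfl⟩ := h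
  obtain ⟨c', x', y', hc', hx', hy', hs', rfl⟩ := h'
  refine ⟨c * c', x * x', y * y', mul_ne_zero hc hc', ?_, ?_, ?_, ?_⟩
  · rw [map_mul]
    exact mul_ne_zero hx hx'
  · rw [map_mul]
    exact mul_ne_zero hy hy'
  · rw [map_mul, map_mul, map_mul]
    calc s * s' * (incl A y * incl A y') = (s * incl A y) * (s' * incl A y') := by ring
      _ = HahnSeries.C c * HahnSeries.C c' * (incl A x * incl A x') := by rw [hs, hs']; ring
  · rw [map_mul, map_mul, dl_mul hx hx', dl_mul hy hy']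
    ring

theorem HasLam.inv (h : HasLam A s t) : HasLam A s⁻¹ (-t) := by
  have hs0 : s ≠ 0 := h.ne_zero
  obtain ⟨c, x, y, hc, hx, hy, hs, rfl⟩ := h
  refine ⟨c⁻¹, y, x, inv_ne_zero hc, hy, hx, ?_, by ring⟩
  have hC : (HahnSeries.C c⁻¹ : LaurentSeries Kbar) * HahnSeries.C c = 1 := by
    rw [← map_mul, inv_mul_cancel₀ hc, map_one]
  calc s⁻¹ * incl A x = s⁻¹ * ((HahnSeries.C c⁻¹ * HahnSeries.C c) * incl A x) := by
        rw [hC, one_mul]
    _ = s⁻¹ * (HahnSeries.C c⁻¹ * (HahnSeries.C c * incl A x)) := by rw [mul_assoc]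
    _ = s⁻¹ * (HahnSeries.C c⁻¹ * (s * incl A y)) := by rw [hs]
    _ = (s⁻¹ * s) * (HahnSeries.C c⁻¹ * incl A y) := by ring
    _ = HahnSeries.C c⁻¹ * incl A y := by rw [inv_mul_cancel₀ hs0, one_mul]

theorem HasLam.const {c : Kbar} (hc : c ≠ 0) : HasLam A (HahnSeries.C c) 0 := by
  refine ⟨c, 1, 1, hc, ?_, ?_, rfl, ?_⟩
  · rw [map_one]
    exact one_ne_zero
  · rw [map_one]
    exact one_ne_zero
  · rw [sub_self]

theorem HasLam.of_incl {x : LaurentSeries A} (hx : red A x ≠ 0) :
    HasLam A (incl A x) (dl (red A x)) := by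
  refine ⟨1, x, 1, one_ne_zero, hx, ?_, ?_, ?_⟩
  · rw [map_one]
    exact one_ne_zero
  · rw [map_one, map_one, mul_one, one_mul]
  · rw [map_one, dl_one, sub_zero]

theorem HasLam.pow (h : HasLam A s t) (n : ℕ) : HasLam A (s ^ n) (n • t) := by
  induction n with
  | zero =>
    rw [pow_zero, zero_smul, ← map_one (HahnSeries.C : Kbar →+* LaurentSeries Kbar)]
    exact HasLam.const one_ne_zero
  | succ n ih =>
    rw [pow_succ, succ_nsmul]
    exact ih.mul h

theorem HasLam.zpow (h : HasLam A s t) (n : ℤ) : HasLam A (s ^ n) (n • t) := by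
  obtain ⟨m, rfl | rfl⟩ := n.eq_nat_or_neg
  · rw [zpow_natCast, natCast_zsmul]
    exact h.pow m
  · rw [zpow_neg, zpow_natCast, neg_zsmul, natCast_zsmul]
    exact (h.pow m).inv

theorem HasLam.div (h : HasLam A s t) (h' : HasLam A s' t') : HasLam A (s / s') (t - t') := by
  rw [div_eq_mul_inv, sub_eq_add_neg]
  exact h.mul h'.inv

/-- `Λ(q^n) = n`. -/
theorem HasLam.single (n : ℤ) :
    HasLam A (HahnSeries.single n (1 : Kbar)) (HahnSeries.C ((n : ℤ) : kk A)) := by
  have h1 : incl A (HahnSeries.single n (1 : A)) = HahnSeries.single n (1 : Kbar) := by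
    rw [coeffMap_single, map_one]
  have h2 : red A (HahnSeries.single n (1 : A)) = HahnSeries.single n (1 : kk A) := by
    rw [coeffMap_single, map_one]
  have h3 : red A (HahnSeries.single n (1 : A)) ≠ 0 := by
    rw [h2]
    exact HahnSeries.single_ne_zero one_ne_zero
  have := HasLam.of_incl h3
  rw [h1, h2, dl_single] at this
  exact this

end Fermat.Agent.S15.A

end
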