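/-
S15, block A, LAMBDA (helper17): `u_N = q^(1-N) g^24`, `g = E(q) / E(q^N)`, `E = ∏ (1 - q^n)`, and
`Λ(g) = - q + ...`.
-/
import Fermat.Agent.S15.A.Lam.Calc
import Fermat.Prelude.Def_ModularCurve_ModularUnit

set_option autoImplicit false

noncomputable section

namespace Fermat.Agent.S15.A

open ModularCurve AlgebraicCurve Fermat.Agent.S24 Fermat.Agent.GAL.E Fermat.Agent.Lib.Theta

/-- `E = ∏ (1 - q^n)` over a commutative ring. -/
def eS (R : Type*) [CommRing R] : LaurentSeries R :=
  HahnSeries.ofPowerSeries ℤ R (etaProd.map (Int.castRingHom R))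

theorem coeffMap_eS {R S : Type*} [CommRing R] [CommRing S] (f : R →+* S) :
    coeffMap f (eS R) = eS S := by
  ext k
  rw [coeffMap_coeff, eS, eS]
  rcases lt_or_ge k 0 with hk | hk
  · rw [ofPowerSeries_coeff_of_neg _ hk, ofPowerSeries_coeff_of_neg _ hk, map_zero]
  · obtain ⟨n, rfl⟩ := Int.eq_ofNat_of_zero_le hk
    rw [HahnSeries.ofPowerSeries_apply_coeff, HahnSeries.ofPowerSeries_apply_coeff,
      PowerSeries.coeff_map, PowerSeries.coeff_map]
    simp

private theorem eta_coeff_finprod (s : Finset ℕ) :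
    PowerSeries.coeff 0 (∏ n ∈ s, (1 - PowerSeries.X ^ (n + 1) : PowerSeries ℤ)) = 1 ∧
    PowerSeries.coeff 1 (∏ n ∈ s, (1 - PowerSeries.X ^ (n + 1) : PowerSeries ℤ)) =
      if 0 ∈ s then -1 else 0 := by
  classical
  induction s using Finset.induction_on with
  | empty => simp [PowerSeries.coeff_one]
  | insert a s ha ih =>
    rw [Finset.prod_insert ha]
    obtain ⟨ih0, ih1⟩ := ih
    have e0 : PowerSeries.coeff 0 (1 - PowerSeries.X ^ (a + 1) : PowerSeries ℤ) = 1 := by
      simp
    have e1 : PowerSeries.coeff 1 (1 - PowerSeries.X ^ (a + 1) : PowerSeries ℤ) =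
        if a = 0 then -1 else 0 := by
      rcases Nat.eq_zero_or_pos a with rfl | hn
      · simp [PowerSeries.coeff_one]
      · have h1 : a ≠ 0 := hn.ne'
        simp [PowerSeries.coeff_X_pow, PowerSeries.coeff_one, h1]
    constructor
    · rw [PowerSeries.coeff_mul, Finset.Nat.antidiagonal_zero, Finset.sum_singleton, e0, ih0,
        one_mul]
    · rw [PowerSeries.coeff_mul, Finset.Nat.sum_antidiagonal_eq_sum_range_succ_mk,
        Finset.sum_range_succ, Finset.sum_range_one]
      simp only [Nat.sub_zero, Nat.sub_self]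
      rw [e0, e1, ih0, ih1]
      by_cases h0 : a = 0
      · subst h0
        simp [ha]
      · have h0' : ¬ (0 = a) := fun h => h0 h.symm
        simp [h0, h0']

theorem coeff_etaProd_one : PowerSeries.coeff 1 etaProd = -1 := by
  open scoped PowerSeries.WithPiTopology in
  have h1 := (PowerSeries.WithPiTopology.multipliable_one_sub_X_pow ℤ).hasProd
  have h2 : Filter.Tendsto (fun s : Finset ℕ =>
      PowerSeries.coeff 1 (∏ n ∈ s, (1 - PowerSeries.X ^ (n + 1) : PowerSeries ℤ))) Filter.atTop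
      (nhds (PowerSeries.coeff 1 etaProd)) :=
    ((PowerSeries.WithPiTopology.continuous_coeff ℤ 1).tendsto _).comp h1
  have h3 : Filter.Tendsto (fun s : Finset ℕ =>
      PowerSeries.coeff 1 (∏ n ∈ s, (1 - PowerSeries.X ^ (n + 1) : PowerSeries ℤ))) Filter.atTop
      (nhds (-1 : ℤ)) := by
    refine tendsto_const_nhds.congr' ?_
    filter_upwards [Filter.eventually_ge_atTop ({0} : Finset ℕ)] with s hs
    rw [(eta_coeff_finprod s).2, if_pos (hs (Finset.mem_singleton_self 0))]
  exact tendsto_nhds_unique h2 h3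

theorem eS_coeff (R : Type*) [CommRing R] :
    (∀ n : ℤ, n < 0 → (eS R).coeff n = 0) ∧ (eS R).coeff 0 = 1 ∧ (eS R).coeff 1 = -1 := by
  refine ⟨fun n hn => ofPowerSeries_coeff_of_neg _ hn, ?_, ?_⟩
  · rw [eS, show (0 : ℤ) = ((0 : ℕ) : ℤ) from rfl, HahnSeries.ofPowerSeries_apply_coeff,
      PowerSeries.coeff_map, PowerSeries.coeff_zero_eq_constantCoeff_apply, constantCoeff_etaProd]
    simp
  · rw [eS, show (1 : ℤ) = ((1 : ℕ) : ℤ) from rfl, HahnSeries.ofPowerSeries_apply_coeff,
      PowerSeries.coeff_map, coeff_etaProd_one]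
    simp

theorem eS_ne_zero (R : Type*) [CommRing R] [Nontrivial R] : eS R ≠ 0 := by
  intro h
  have h0 := (eS_coeff R).2.1
  rw [h, HahnSeries.coeff_zero] at h0
  exact zero_ne_one h0

variable (N : ℕ) [NeZero N]

/-- `g = E(q) / E(q^N)`. -/
def gK : LaurentSeries Kbar := eS Kbar / qExpand Kbar N (eS Kbar)

/-- the `q`-expansion of `Δ(q) / Δ(q^N)`. -/
theorem coeffEmb_modularUnitSeries :
    coeffEmb Kbar (modularUnitSeries N) = HahnSeries.single (1 - (N : ℤ)) 1 * gK N ^ 24 := by
  have hd : coeffEmb Kbar deltaSeries = HahnSeries.single (1 : ℤ) 1 * eS Kbar ^ 24 := by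
    rw [deltaSeries, map_mul, coeffEmb, coeffMap_single, map_one, coeffMap_ofPowerSeries,
      dedekindEtaUnitQ, dedekindEtaUnit, eS, ← map_pow, ← map_pow]
    congr 2
  have hE : qExpand Kbar N (eS Kbar) ≠ 0 := fun h =>
    eS_ne_zero Kbar (qExpand_injective (R := Kbar) N (h.trans (map_zero _).symm))
  have hs : (HahnSeries.single (N : ℤ) (1 : Kbar)) ≠ 0 := HahnSeries.single_ne_zero one_ne_zero
  have h1 : HahnSeries.single (1 - (N : ℤ)) (1 : Kbar) * HahnSeries.single (N : ℤ) (1 : Kbar) =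
      HahnSeries.single (1 : ℤ) 1 := by
    rw [HahnSeries.single_mul_single, mul_one, sub_add_cancel]
  have h2 : coeffEmb Kbar (deltaSeriesN N) =
      HahnSeries.single (N : ℤ) 1 * qExpand Kbar N (eS Kbar) ^ 24 := by
    rw [deltaSeriesN, coeffEmb, ModularCurve.coeffMap_qExpand, ← coeffEmb, hd, map_mul,
      qExpand_single, mul_one, map_pow]
  rw [modularUnitSeries, map_mul, map_inv₀, hd, h2, gK, div_pow, ← h1]
  field_simp

variable (A : ValuationSubring Kbar)

/-- `Λ(g)`. -/
def lamG : LaurentSeries (kk A) :=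
  dl (eS (kk A)) - (N : LaurentSeries (kk A)) * qExpand (kk A) N (dl (eS (kk A)))

theorem hasLam_gK : HasLam A (gK N) (lamG N A) := by
  have hr : red A (eS A) = eS (kk A) := coeffMap_eS _
  have hi : incl A (eS A) = eS Kbar := coeffMap_eS _
  have h1 : HasLam A (eS Kbar) (dl (eS (kk A))) := by
    have h := HasLam.of_incl (A := A) (x := eS A) (by rw [hr]; exact eS_ne_zero _)
    rwa [hr, hi] at h
  have hr2 : red A (qExpand A N (eS A)) = qExpand (kk A) N (eS (kk A)) := by
    rw [← hr]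
    exact ModularCurve.coeffMap_qExpand _ N _
  have hi2 : incl A (qExpand A N (eS A)) = qExpand Kbar N (eS Kbar) := by
    rw [← hi]
    exact ModularCurve.coeffMap_qExpand _ N _
  have h2 : HasLam A (qExpand Kbar N (eS Kbar)) (dl (qExpand (kk A) N (eS (kk A)))) := by
    have h := HasLam.of_incl (A := A) (x := qExpand A N (eS A)) (by
      rw [hr2]
      exact fun h => eS_ne_zero (kk A) (qExpand_injective (R := kk A) N (h.trans (map_zero _).symm)))
    rwa [hr2, hi2] at h
  have h3 := h1.div h2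
  rwa [dl_qExpand] at h3

theorem lamG_coeff (hN : 2 ≤ N) : (lamG N A).coeff 0 = 0 ∧ (lamG N A).coeff 1 = -1 := by
  obtain ⟨e1, e2, e3⟩ := eS_coeff (kk A)
  obtain ⟨d1, d2⟩ := dl_coeff_of_one_add e1 e2
  have hc : (N : LaurentSeries (kk A)) = HahnSeries.C (N : kk A) := (map_natCast _ N).symm
  have h0 : (qExpand (kk A) N (dl (eS (kk A)))).coeff 0 = 0 := by
    have h := qExpand_coeff_mul (R := kk A) N (dl (eS (kk A))) 0
    rw [mul_zero] at h
    rw [h]
    exact d1 0 le_rfl
  have h1 : (qExpand (kk A) N (dl (eS (kk A)))).coeff 1 = 0 := by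
    apply qExpand_coeff_of_not_dvd
    intro h
    have h' : N ∣ 1 := by exact_mod_cast h
    have := Nat.dvd_one.1 h'
    omega
  constructor
  · rw [lamG, HahnSeries.coeff_sub, hc, HahnSeries.C_mul_eq_smul, HahnSeries.coeff_smul, h0,
      d1 0 le_rfl, smul_zero, sub_zero]
  · rw [lamG, HahnSeries.coeff_sub, hc, HahnSeries.C_mul_eq_smul, HahnSeries.coeff_smul, h1,
      d2, e3, smul_zero, sub_zero]

end Fermat.Agent.S15.A

end
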