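/-
S15, block A, LAMBDA (helper17): `Λ` on the function field `FN N`.
-/
import Fermat.Agent.S15.A.Lam.Calc
import Fermat.Agent.GAL.E.Scaling
import Fermat.Agent.S37.II.Defs

set_option autoImplicit false

noncomputable section

namespace Fermat.Agent.S15.A

open ModularCurve AlgebraicCurve Fermat.Agent.S24 Fermat.Agent.GAL.E Fermat.Agent.Lib.Theta

variable {A : ValuationSubring Kbar} {N : ℕ}

/-- from an identity in `FN N` to an identity of series. -/
theorem fn_mul_incl_eq {f : FN N} {c : Kbar} {x y : LaurentSeries A} (hry : red A y ≠ 0)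
    (hx : incl A x ∈ modularFunctionFieldBar N) (hy : incl A y ∈ modularFunctionFieldBar N)
    (hu : f = algebraMap Kbar (FN N) c * ((⟨incl A x, hx⟩ : FN N) / ⟨incl A y, hy⟩)) :
    (f : LaurentSeries Kbar) * incl A y = HahnSeries.C c * incl A x := by
  have h1 : (f : LaurentSeries Kbar) =
      algebraMap Kbar (LaurentSeries Kbar) c * (incl A x / incl A y) := by
    rw [hu]
    rfl
  rw [h1, scaling_algebraMap, mul_assoc, div_mul_cancel₀ _ (incl_ne_zero hry)]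

theorem fn_natCast_eq_zero {ℓ : ℕ} (hA : A.LiesOverPrime ℓ) : ((ℓ : ℕ) : kk A) = 0 := by
  have h1 : ((ℓ : A) : Kbar) ∈ A.nonunits := by
    have h0 : (ℓ : Kbar) ∈ A.nonunits := hA
    simpa using h0
  have h2 : (ℓ : A) ∈ IsLocalRing.maximalIdeal A := by
    rw [← ValuationSubring.coe_mem_nonunits_iff]
    exact h1
  have h3 : IsLocalRing.residue A (ℓ : A) = 0 := (IsLocalRing.residue_eq_zero_iff _).mpr h2
  rw [← h3, map_natCast]

/-- every nonzero element of `FN N` has a `Λ`. -/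
theorem exists_hasLam {ℓ : ℕ} (hℓ : ℓ.Prime) (hA : A.LiesOverPrime ℓ) (f : FN N) (hf : f ≠ 0) :
    ∃ t : LaurentSeries (kk A), HasLam A (f : LaurentSeries Kbar) t := by
  obtain ⟨c, x, y, hx, hy, hc, hrx, hry, hu⟩ := exists_scaling A ℓ hℓ hA N f hf
  exact ⟨_, c, x, y, hc, hrx, hry, fn_mul_incl_eq hry hx hy hu, rfl⟩

/-- `Λ` kills the functions congruent to a constant. -/
theorem hasLam_of_isOne {e : FN N} (h : Fermat.Agent.S37.II.IsOne A N e) :
    HasLam A (e : LaurentSeries Kbar) 0 := by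
  obtain ⟨d, P, Q, hP, hQ, hd, hPQ, hQ0, he⟩ := h
  have hPQ' : red A P = red A Q := hPQ
  have hQ0' : red A Q ≠ 0 := hQ0
  refine ⟨d, P, Q, hd, hPQ' ▸ hQ0', hQ0', fn_mul_incl_eq hQ0' hP hQ he, ?_⟩
  rw [hPQ', sub_self]

/-- the residue field has characteristic `ℓ`. -/
theorem nsmul_eq_zero_of_dvd {ℓ : ℕ} (hA : A.LiesOverPrime ℓ) {n : ℤ} (hn : (ℓ : ℤ) ∣ n)
    (t : LaurentSeries (kk A)) : n • t = 0 := by
  obtain ⟨m, rfl⟩ := hn
  have h1 : ((ℓ : ℕ) : LaurentSeries (kk A)) = 0 := by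
    rw [← map_natCast (HahnSeries.C : kk A →+* LaurentSeries (kk A)), fn_natCast_eq_zero hA,
      map_zero]
  rw [zsmul_eq_mul, Int.cast_mul, Int.cast_natCast, h1, zero_mul, zero_mul]

theorem intCast_ne_zero_of_not_dvd {ℓ : ℕ} (hℓ : ℓ.Prime) (hA : A.LiesOverPrime ℓ) {n : ℤ}
    (hn : ¬ (ℓ : ℤ) ∣ n) : ((n : ℤ) : kk A) ≠ 0 := by
  have : CharP (kk A) ℓ := (CharP.charP_iff_prime_eq_zero hℓ).2 (fn_natCast_eq_zero hA)
  exact (CharP.intCast_eq_zero_iff (kk A) ℓ n).not.2 hn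

theorem eq_zero_of_zsmul_eq_zero {ℓ : ℕ} (hℓ : ℓ.Prime) (hA : A.LiesOverPrime ℓ) {n : ℤ}
    (hn : ¬ (ℓ : ℤ) ∣ n) {t : LaurentSeries (kk A)} (h : n • t = 0) : t = 0 := by
  rw [zsmul_eq_mul, ← map_intCast (HahnSeries.C : kk A →+* LaurentSeries (kk A))] at h
  rcases mul_eq_zero.1 h with h1 | h1
  · exact absurd (HahnSeries.C_injective (h1.trans (map_zero _).symm))
      (intCast_ne_zero_of_not_dvd hℓ hA hn)
  · exact h1

end Fermat.Agent.S15.A

end
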