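/-
S15, block A, LAMBDA (helper17): extraction of roots in a field containing an algebraically closed
field.
-/
import Mathlib

set_option autoImplicit false

namespace Fermat.Agent.S15.A

/-- `a ^ m = c * b ^ m` implies `a = c' * b` with `c'` a constant. -/
theorem exists_const_of_pow_eq {K L : Type*} [Field K] [IsAlgClosed K] [Field L] (φ : K →+* L)
    {m : ℕ} (hm : (m : K) ≠ 0) {a b : L} {c : K} (hc : c ≠ 0) (h : a ^ m = φ c * b ^ m) :
    ∃ c' : K, c' ≠ 0 ∧ a = φ c' * b := by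
  have hm0 : m ≠ 0 := by
    rintro rfl
    exact hm Nat.cast_zero
  rcases eq_or_ne b 0 with rfl | hb
  · rw [zero_pow hm0, mul_zero] at h
    exact ⟨1, one_ne_zero, by rw [pow_eq_zero_iff hm0 |>.1 h, mul_zero]⟩
  obtain ⟨c1, hc1⟩ := IsAlgClosed.exists_pow_nat_eq c (Nat.pos_of_ne_zero hm0)
  have hc10 : c1 ≠ 0 := by
    rintro rfl
    rw [zero_pow hm0] at hc1
    exact hc hc1.symm
  have hφc1 : φ c1 ≠ 0 := (map_ne_zero φ).2 hc10
  have hden : φ c1 * b ≠ 0 := mul_ne_zero hφc1 hb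
  have hw : (a / (φ c1 * b)) ^ m = 1 := by
    rw [div_pow, h, mul_pow, ← map_pow, hc1, div_self]
    exact mul_ne_zero ((map_ne_zero φ).2 hc) (pow_ne_zero m hb)
  have : NeZero (m : K) := ⟨hm⟩
  have : NeZero m := ⟨hm0⟩
  obtain ⟨ζ, hζ⟩ := HasEnoughRootsOfUnity.exists_primitiveRoot K m
  have hζ' : IsPrimitiveRoot (φ ζ) m := hζ.map_of_injective φ.injective
  obtain ⟨i, -, hi⟩ := hζ'.eq_pow_of_pow_eq_one hw
  have hζ0 : ζ ≠ 0 := hζ.ne_zero hm0
  refine ⟨ζ ^ i * c1, mul_ne_zero (pow_ne_zero i hζ0) hc10, ?_⟩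
  rw [map_mul, map_pow, hi, mul_assoc, div_mul_cancel₀ _ hden]

end Fermat.Agent.S15.A
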