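/-
S15, block A, node K5 (helper208, second team of helper17): the cuspidal class `(0) - (∞)` of `X₀(N)`
is not zero if `N - 1 ∤ 24`.

If `(0) - (∞) = div f` then `f ^ (N - 1) = c u_N`, `u_N = q ^ (1 - N) g ^ 24`.  Choose a prime `ℓ` with
`ℓ ^ e ∥ 24`, `ℓ ^ (e + 1) ∣ N - 1`; extracting an `ℓ ^ e`-th root, `f ^ m = c' q ^ (-m) g ^ t` with
`ℓ ∣ m`, `ℓ ∤ t`.  Apply `Λ` (the logarithmic derivative of the reduction modulo `ℓ`): the left hand
side is killed, the right hand side has `q`-coefficient `-t ≠ 0`.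
-/
import Fermat.Agent.S15.A.Lam.FN
import Fermat.Agent.S15.A.Lam.Eta
import Fermat.Agent.S15.A.Lam.Root
import Fermat.Agent.S15.A.Defs
import Fermat.Agent.S27.RiemannI
import Fermat.Agent.Lib.Frobenius.Exists

set_option autoImplicit false

noncomputable section

namespace Fermat.Agent.S15.A

open ModularCurve AlgebraicCurve Fermat.Agent.S24 Fermat.Agent.S24.FF Fermat.Agent.S27
  Fermat.Agent.GAL.E Fermat.Agent.Lib.Theta

/-- arithmetic: a prime which divides `n` more than `24`. -/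
theorem exists_prime_of_not_dvd_24 {n : ℕ} (hn : n ≠ 0) (h : ¬ n ∣ 24) :
    ∃ l e t m : ℕ, l.Prime ∧ 24 = l ^ e * t ∧ ¬ l ∣ t ∧ n = l ^ e * m ∧ l ∣ m := by
  have h1 : ¬ ∀ p : ℕ, p.Prime → n.factorization p ≤ (24 : ℕ).factorization p := fun hh =>
    h ((Nat.factorization_prime_le_iff_dvd hn (by norm_num)).1 hh)
  push Not at h1
  obtain ⟨l, hl, hlt⟩ := h1
  set e := (24 : ℕ).factorization l with he
  have hd : l ^ (e + 1) ∣ n := (hl.pow_dvd_iff_le_factorization hn).2 hlt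
  obtain ⟨k, hk⟩ := hd
  refine ⟨l, e, 24 / l ^ e, l * k, hl, ?_, ?_, ?_, dvd_mul_right l k⟩
  · exact (Nat.ordProj_mul_ordCompl_eq_self 24 l).symm
  · exact Nat.not_dvd_ordCompl hl (by norm_num)
  · rw [hk, pow_succ, mul_assoc]

theorem not_sub_one_dvd_24 {N : ℕ} (hN : N.Prime) (h : N ∉ ({2, 3, 5, 7, 13} : Finset ℕ)) :
    ¬ (N - 1) ∣ 24 := by
  intro hd
  have hle : N - 1 ≤ 24 := Nat.le_of_dvd (by norm_num) hd
  have hN25 : N ≤ 25 := by omega
  simp only [Finset.mem_insert, Finset.mem_singleton, not_or] at h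
  obtain ⟨h2, h3, h5, h7, h13⟩ := h
  interval_cases N <;> first | omega | (exfalso; revert hN; norm_num) | (exfalso; revert hd; norm_num)

variable {N : ℕ} [NeZero N]

/-- the core: `f ^ m = c q ^ n g ^ t` is impossible if `ℓ ∣ m`, `ℓ ∤ t`. -/
theorem lam_core (hN : 2 ≤ N) {l : ℕ} (hl : l.Prime) (A : ValuationSubring Kbar)
    (hA : A.LiesOverPrime l) (f : FN N) (hf : f ≠ 0) {m t : ℕ} (hlm : l ∣ m) (hlt : ¬ l ∣ t)
    {c : Kbar} (hc : c ≠ 0) (n : ℤ)
    (h : (f : LaurentSeries Kbar) ^ m =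
      HahnSeries.C c * (HahnSeries.single n (1 : Kbar) * gK N ^ t)) : False := by
  obtain ⟨tf, htf⟩ := exists_hasLam hl hA f hf
  have h1 := htf.pow m
  have h2 : HasLam A (HahnSeries.C c * (HahnSeries.single n (1 : Kbar) * gK N ^ t))
      (0 + (HahnSeries.C ((n : ℤ) : kk A) + t • lamG N A)) :=
    (HasLam.const hc).mul ((HasLam.single n).mul ((hasLam_gK N A).pow t))
  rw [h] at h1
  have h3 := h1.unique h2
  have h4 : m • tf = 0 := by
    rw [← natCast_zsmul]
    exact nsmul_eq_zero_of_dvd hA (Int.natCast_dvd_natCast.2 hlm) tf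
  rw [h4, zero_add] at h3
  have h6 : (t • lamG N A).coeff 1 = -(t : kk A) := by
    rw [nsmul_eq_mul, ← map_natCast (HahnSeries.C : kk A →+* LaurentSeries (kk A)),
      HahnSeries.C_mul_eq_smul, HahnSeries.coeff_smul, (lamG_coeff N A hN).2, smul_eq_mul, mul_neg,
      mul_one]
  have h7 : (HahnSeries.C ((n : ℤ) : kk A) : LaurentSeries (kk A)).coeff 1 = 0 :=
    HahnSeries.coeff_single_of_ne one_ne_zero
  have h5 := congrArg (fun s => HahnSeries.coeff s 1) h3
  simp only [HahnSeries.coeff_zero, HahnSeries.coeff_add] at h5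
  rw [h6, h7, zero_add, eq_comm, neg_eq_zero] at h5
  have h8 := intCast_ne_zero_of_not_dvd hl hA (n := (t : ℤ))
    (fun hh => hlt (Int.natCast_dvd_natCast.1 hh))
  exact h8 (by rw [Int.cast_natCast]; exact h5)

/-- **K5.**  `u_N` is given by its expansion and its divisor. -/
theorem cc_ne_zero_of_uN (hN : N.Prime) (h24 : ¬ (N - 1) ∣ 24) (z : Place Kbar (FN N)) (uN : FN N)
    (hser : (uN : LaurentSeries Kbar) = HahnSeries.single (1 - (N : ℤ)) 1 * gK N ^ 24)
    (hdiv : ∀ v : Place Kbar (FN N), v.ord uN = ((N : ℤ) - 1) * (pt z - pt (cInf N)) v) :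
    cc N z ≠ 0 := by
  intro h0
  haveI : IsFF1 Kbar (FN N) := Export.isFF1 N
  rw [cc, S27.cls_eq_zero_iff (degree_pt_sub_pt _ _)] at h0
  obtain ⟨f, hf0, hfD⟩ := h0
  have hN1 : N - 1 ≠ 0 := by have := hN.two_le; omega
  obtain ⟨l, e, t, m, hl, h24', hlt, hNm, hlm⟩ := exists_prime_of_not_dvd_24 hN1 h24
  obtain ⟨A, hA⟩ := Fermat.Agent.Lib.Frobenius.exists_liesOverPrime l hl
  have hg0 : gK N ≠ 0 := (hasLam_gK N A).ne_zero
  have hu0 : uN ≠ 0 := by
    rintro rfl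
    have h1 : (0 : LaurentSeries Kbar) = HahnSeries.single (1 - (N : ℤ)) 1 * gK N ^ 24 := hser
    exact mul_ne_zero (HahnSeries.single_ne_zero one_ne_zero) (pow_ne_zero _ hg0) h1.symm
  have hcast : ((N - 1 : ℕ) : ℤ) = (N : ℤ) - 1 := by
    rw [Nat.cast_sub hN.one_lt.le, Nat.cast_one]
  obtain ⟨c, hc⟩ := eq_algebraMap_of_forall_ord_nonneg (K := Kbar) (f ^ (N - 1) / uN) (fun v => by
    rw [div_eq_mul_inv, v.ord_mul (pow_ne_zero _ hf0) (inv_ne_zero hu0), v.ord_inv, ord_pow,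
      hdiv v, ← hfD v, hcast]
    simp)
  have hc0 : c ≠ 0 := by
    rintro rfl
    rw [map_zero] at hc
    exact div_ne_zero (pow_ne_zero _ hf0) hu0 hc
  have hfu : f ^ (N - 1) = algebraMap Kbar (FN N) c * uN := by
    rw [← hc, div_mul_cancel₀ _ hu0]
  have hfu' : (f : LaurentSeries Kbar) ^ (N - 1) =
      HahnSeries.C c * (HahnSeries.single (1 - (N : ℤ)) 1 * gK N ^ 24) := by
    have h1 := congrArg (fun y : FN N => (y : LaurentSeries Kbar)) hfu
    have h2 : ((algebraMap Kbar (FN N) c * uN : FN N) : LaurentSeries Kbar)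
        = algebraMap Kbar (LaurentSeries Kbar) c * (uN : LaurentSeries Kbar) := rfl
    have h3 : ((f ^ (N - 1) : FN N) : LaurentSeries Kbar) = (f : LaurentSeries Kbar) ^ (N - 1) := rfl
    change ((f ^ (N - 1) : FN N) : LaurentSeries Kbar)
        = ((algebraMap Kbar (FN N) c * uN : FN N) : LaurentSeries Kbar) at h1
    rw [h2, h3, scaling_algebraMap, hser] at h1
    exact h1
  have hs : (HahnSeries.single (1 - (N : ℤ)) (1 : Kbar) : LaurentSeries Kbar)
      = (HahnSeries.single (-(m : ℤ)) (1 : Kbar)) ^ (l ^ e) := by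
    have this : ((N - 1 : ℕ) : ℤ) = ((l ^ e * m : ℕ) : ℤ) := by rw [hNm]
    rw [hcast] at this
    have h2 : (l ^ e) • (-(m : ℤ)) = 1 - (N : ℤ) := by
      rw [nsmul_eq_mul]
      push_cast at this ⊢
      linear_combination this
    rw [HahnSeries.single_pow, one_pow, h2]
  have hroot : ((f : LaurentSeries Kbar) ^ m) ^ (l ^ e) =
      HahnSeries.C c * (HahnSeries.single (-(m : ℤ)) (1 : Kbar) * gK N ^ t) ^ (l ^ e) := by
    rw [← pow_mul, mul_comm m, ← hNm, hfu', hs, mul_pow, ← pow_mul (gK N), mul_comm t, ← h24']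
  obtain ⟨c', hc', hfin⟩ := exists_const_of_pow_eq (HahnSeries.C : Kbar →+* LaurentSeries Kbar)
    (m := l ^ e) (Nat.cast_ne_zero.2 (pow_ne_zero _ hl.ne_zero)) hc0 hroot
  exact lam_core hN.two_le hl A hA f hf0 hlm hlt hc' _ hfin

end Fermat.Agent.S15.A

end
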