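/-
S15, block A, node K6 (helper135): the case `ℓ = r ≥ 5` (`RCase`).

Inputs:
* `u : FN N` with `q`-expansion `uSer N = Δ(q)/Δ(q^N)` and divisor `(N-1)((0)-(∞))`   (K3);
* `Λ` (K4: `S15/A/Lam/{Gauss,Calc,FN,Eta}.lean`);
* `NNIsOne N A`: a function whose divisor lies in `ND N A` is congruent to a constant (A-RED).

Proof.  `c = cls((0)-(∞))`, `n = ord c`, `n m = N - 1`, `div w = n((0)-(∞))`, `u = const w^m`.
If `k c ∈ NN`, `ℓ k c = 0`, `k c ≠ 0` then `ℓ k = n s`, `ℓ ∤ s`; `k((0)-(∞)) = D' + div g`, `D' ∈ ND`;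
`div (w^s / g^ℓ) = ℓ D' ∈ ND`, so `0 = Λ(w^s/g^ℓ) = s Λ(w)`, `Λ(w) = 0`, `Λ(u) = 0`.  But
`Λ(u) = (1 - N) + 24 Λ(g_N)` has `q`-coefficient `-24 ≠ 0`.
-/
import Fermat.Agent.S15.A.Defs
import Fermat.Agent.S15.A.Cusp.Defs
import Fermat.Agent.S15.A.Lam.FN
import Fermat.Agent.S15.A.Lam.Eta
import Fermat.Agent.S27.RiemannI
import Fermat.Agent.S17.H.Glue.Defs

set_option autoImplicit false

noncomputable section

namespace Fermat.Agent.S15.A

open ModularCurve AlgebraicCurve Fermat.Agent.S24 Fermat.Agent.S27 Fermat.Agent.S37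
open Fermat.Agent.S24.FF

/-! ## Generalities on divisors of functions -/

section General

variable {K F : Type*} [Field K] [Field F] [Algebra K F]

theorem rc_cls_zsmul {D : Divisor K F} (hD : Divisor.degree D = 0) (n : ℤ) :
    cls (n • D) = n • cls D := by
  have hnat : ∀ m : ℕ, cls (m • D) = m • cls D := by
    intro m
    induction m with
    | zero => rw [zero_nsmul, zero_nsmul, cls_zero]
    | succ m ih =>
      rw [succ_nsmul, succ_nsmul, cls_add (by rw [map_nsmul, hD, smul_zero]) hD, ih]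
  obtain ⟨m, rfl | rfl⟩ := n.eq_nat_or_neg
  · rw [natCast_zsmul, natCast_zsmul, hnat]
  · rw [neg_zsmul, neg_zsmul, natCast_zsmul, natCast_zsmul,
      cls_neg (by rw [map_nsmul, hD, smul_zero]), hnat]

theorem rc_zpow {D : Divisor K F} {f : F} (h : IsDivOf D f) (n : ℤ) :
    IsDivOf (n • D) (f ^ n) := by
  refine ⟨zpow_ne_zero n h.1, fun v => ?_⟩
  rw [Finsupp.smul_apply, h.2 v, smul_eq_mul]
  have hnat : ∀ m : ℕ, v.ord (f ^ m) = m * v.ord f := by
    intro m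
    induction m with
    | zero => rw [pow_zero, v.ord_one, Nat.cast_zero, zero_mul]
    | succ m ih =>
      rw [pow_succ, v.ord_mul (pow_ne_zero m h.1) h.1, ih]
      push_cast
      ring
  obtain ⟨m, rfl | rfl⟩ := n.eq_nat_or_neg
  · rw [zpow_natCast, hnat]
  · rw [zpow_neg, zpow_natCast, v.ord_inv, hnat]
    ring

theorem rc_div {D E : Divisor K F} {f g : F} (h : IsDivOf D f) (h' : IsDivOf E g) :
    IsDivOf (D - E) (f / g) := by
  refine ⟨div_ne_zero h.1 h'.1, fun v => ?_⟩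
  rw [Finsupp.sub_apply, h.2 v, h'.2 v, div_eq_mul_inv, v.ord_mul h.1 (inv_ne_zero h'.1),
    v.ord_inv]
  ring

/-- two functions with the same divisor are proportional -/
theorem rc_eq_const [IsAlgClosed K] [CharZero K] [IsFF1 K F] {D : Divisor K F} {f g : F}
    (h : IsDivOf D f) (h' : IsDivOf D g) : ∃ c : K, c ≠ 0 ∧ f = algebraMap K F c * g := by
  have h1 := rc_div h h'
  rw [sub_self] at h1
  obtain ⟨c, hc⟩ := eq_algebraMap_of_forall_ord_nonneg (K := K) (f / g) fun v => by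
    rw [← h1.2 v]
    rfl
  refine ⟨c, ?_, ?_⟩
  · rintro rfl
    rw [map_zero] at hc
    exact h1.1 hc
  · rw [← hc, div_mul_cancel₀ _ h'.1]

end General

variable (N : ℕ) [NeZero N]

/-- **RED-side input of `RCase`**: a function whose divisor is in `ND N A` is congruent to a constant
for the Gauss valuation. -/
def NNIsOne (A : ValuationSubring Kbar) : Prop :=
  ∀ D ∈ ND N A, ∀ f : FN N, IsDivOf D f → II.IsOne A N f

variable {N}

theorem degree_eq_zero_of_mem_ND {A : ValuationSubring Kbar} {D : Divisor Kbar (FN N)}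
    (hD : D ∈ ND N A) : Divisor.degree D = 0 := by
  induction hD using AddSubgroup.closure_induction with
  | mem D h =>
    obtain ⟨P, P', -, rfl⟩ := h
    exact degree_pt_sub_pt P P'
  | zero => exact map_zero _
  | add D E _ _ hD hE => rw [map_add, hD, hE, add_zero]
  | neg D _ hD => rw [map_neg, hD, neg_zero]

/-- every element of `NN` is the class of an element of `ND`. -/
theorem exists_mem_ND_of_mem_NN {A : ValuationSubring Kbar} {x : JZero N} (hx : x ∈ NN N A) :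
    ∃ D ∈ ND N A, x = cls D := by
  induction hx using AddSubgroup.closure_induction with
  | mem x h =>
    obtain ⟨P, P', h, rfl⟩ := h
    exact ⟨_, AddSubgroup.subset_closure ⟨P, P', h, rfl⟩, rfl⟩
  | zero => exact ⟨0, (ND N A).zero_mem, cls_zero.symm⟩
  | add x y _ _ hx hy =>
    obtain ⟨D, hD, rfl⟩ := hx
    obtain ⟨E, hE, rfl⟩ := hy
    exact ⟨D + E, (ND N A).add_mem hD hE,
      (cls_add (degree_eq_zero_of_mem_ND hD) (degree_eq_zero_of_mem_ND hE)).symm⟩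
  | neg x _ hx =>
    obtain ⟨D, hD, rfl⟩ := hx
    exact ⟨-D, (ND N A).neg_mem hD, (cls_neg (degree_eq_zero_of_mem_ND hD)).symm⟩

/-- `Λ(u_N)`. -/
theorem hasLam_uSer (A : ValuationSubring Kbar) :
    HasLam A (uSer N) (HahnSeries.C (((1 - (N : ℤ) : ℤ)) : kk A) + 24 • lamG N A) := by
  rw [uSer, coeffEmb_modularUnitSeries]
  exact (HasLam.single _).mul ((hasLam_gK N A).pow 24)

/-- `Λ(u_N) ≠ 0` for `ℓ ≥ 5`. -/
theorem not_hasLam_uSer_zero (hN : 2 ≤ N) {ℓ : ℕ} (hℓ : ℓ.Prime) (h5 : 5 ≤ ℓ)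
    {A : ValuationSubring Kbar} (hA : A.LiesOverPrime ℓ) : ¬ HasLam A (uSer N) 0 := by
  intro h
  have h1 := (hasLam_uSer (N := N) A).unique h
  have h2 := congrArg (fun t : LaurentSeries (kk A) => t.coeff 1) h1
  simp only [HahnSeries.coeff_add, HahnSeries.coeff_zero, HahnSeries.coeff_smul,
    (lamG_coeff N A hN).2] at h2
  rw [HahnSeries.C_apply, HahnSeries.coeff_single_of_ne (by norm_num), zero_add] at h2
  have h3 : (((-24 : ℤ)) : kk A) = 0 := by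
    rw [← h2]
    simp
  refine intCast_ne_zero_of_not_dvd hℓ hA (n := -24) ?_ h3
  intro hd
  have hd' : ℓ ∣ 24 := by
    have := (Int.dvd_neg).1 hd
    exact_mod_cast this
  have hle : ℓ ≤ 24 := Nat.le_of_dvd (by norm_num) hd'
  interval_cases ℓ <;> revert hℓ hd' <;> decide

/-- **K6** for one valuation ring. -/
theorem rCase_aux (hN : 2 ≤ N) (z : Place Kbar (FN N)) (u : FN N)
    (hu : (u : LaurentSeries Kbar) = uSer N)
    (hdiv : ∀ v : Place Kbar (FN N), v.ord u = ((N : ℤ) - 1) * (pt z - pt (cInf N)) v)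
    {ℓ : ℕ} (hℓ : ℓ.Prime) (h5 : 5 ≤ ℓ) {A : ValuationSubring Kbar} (hA : A.LiesOverPrime ℓ)
    (hred : NNIsOne N A) (k : ℤ) (hk : k • cc N z ∈ NN N A) (hℓk : ℓ • (k • cc N z) = 0) :
    k • cc N z = 0 := by
  by_contra hne
  set D0 : Divisor Kbar (FN N) := pt z - pt (cInf N) with hD0
  have hdeg : Divisor.degree D0 = 0 := degree_pt_sub_pt _ _
  have hcc : cc N z = cls D0 := rfl
  have hu0 : u ≠ 0 := by
    rintro rfl
    exact (hasLam_uSer (N := N) A).ne_zero hu.symm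
  have hUdiv : IsDivOf (((N : ℤ) - 1) • D0) u :=
    ⟨hu0, fun v => by rw [Finsupp.smul_apply, smul_eq_mul, hdiv v]⟩
  -- the order of `c`
  have hN1 : ((N : ℤ) - 1) • cc N z = 0 := by
    rw [hcc, ← rc_cls_zsmul hdeg, cls_eq_zero_iff (by rw [map_zsmul, hdeg, smul_zero])]
    exact ⟨u, hUdiv⟩
  set n : ℕ := addOrderOf (cc N z) with hn
  obtain ⟨m, hm⟩ : (n : ℤ) ∣ (N : ℤ) - 1 := (addOrderOf_dvd_iff_zsmul_eq_zero).2 hN1
  have hnc : (n : ℤ) • cc N z = 0 := by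
    rw [natCast_zsmul]
    exact addOrderOf_nsmul_eq_zero _
  obtain ⟨w, hw⟩ : ∃ w : FN N, IsDivOf ((n : ℤ) • D0) w := by
    rw [hcc, ← rc_cls_zsmul hdeg, cls_eq_zero_iff (by rw [map_zsmul, hdeg, smul_zero])] at hnc
    exact hnc
  -- `u = const * w ^ m`
  have hwm : IsDivOf (((N : ℤ) - 1) • D0) (w ^ m) := by
    have := rc_zpow hw m
    rwa [smul_smul, mul_comm, ← hm] at this
  obtain ⟨c0, hc0, huw⟩ := rc_eq_const hUdiv hwm
  -- `ℓ k = n s`, `ℓ ∤ s`
  obtain ⟨s, hs⟩ : (n : ℤ) ∣ (ℓ : ℤ) * k := by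
    rw [addOrderOf_dvd_iff_zsmul_eq_zero, mul_smul, natCast_zsmul]
    exact hℓk
  have hnk : ¬ (n : ℤ) ∣ k := fun h => hne ((addOrderOf_dvd_iff_zsmul_eq_zero).1 h)
  have hℓ0 : (ℓ : ℤ) ≠ 0 := by exact_mod_cast hℓ.ne_zero
  have hℓs : ¬ (ℓ : ℤ) ∣ s := by
    rintro ⟨s', rfl⟩
    apply hnk
    refine ⟨s', mul_left_cancel₀ hℓ0 ?_⟩
    rw [hs]
    ring
  -- `k D0 = D' + div g`
  obtain ⟨D', hD', hkD'⟩ := exists_mem_ND_of_mem_NN hk
  have hdeg' := degree_eq_zero_of_mem_ND hD'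
  obtain ⟨g, hg⟩ : ∃ g : FN N, IsDivOf (k • D0 - D') g := by
    rw [hcc, ← rc_cls_zsmul hdeg, cls_eq_cls_iff (by rw [map_zsmul, hdeg, smul_zero]) hdeg'] at hkD'
    exact hkD'
  -- `e = w ^ s / g ^ ℓ`
  have he : IsDivOf ((ℓ : ℤ) • D') (w ^ s / g ^ (ℓ : ℤ)) := by
    have := rc_div (rc_zpow hw s) (rc_zpow hg (ℓ : ℤ))
    have e : s • (n : ℤ) • D0 - (ℓ : ℤ) • (k • D0 - D') = (ℓ : ℤ) • D' := by
      have e1 : (ℓ : ℤ) • (k • D0 - D') = ((ℓ : ℤ) * k) • D0 - (ℓ : ℤ) • D' := by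
        rw [smul_sub (ℓ : ℤ), smul_smul]
      rw [e1, smul_smul, hs, mul_comm s]
      abel
    rwa [e] at this
  have hone : II.IsOne A N (w ^ s / g ^ (ℓ : ℤ)) :=
    hred _ ((ND N A).zsmul_mem hD' _) _ he
  have hL0 := hasLam_of_isOne hone
  obtain ⟨tw, htw⟩ := exists_hasLam hℓ hA w hw.1
  obtain ⟨tg, htg⟩ := exists_hasLam hℓ hA g hg.1
  have hcoe : ((w ^ s / g ^ (ℓ : ℤ) : FN N) : LaurentSeries Kbar) =
      (w : LaurentSeries Kbar) ^ s / (g : LaurentSeries Kbar) ^ (ℓ : ℤ) := by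
    have h1 := map_div₀ (modularFunctionFieldBar N).val (w ^ s) (g ^ (ℓ : ℤ))
    rw [map_zpow₀, map_zpow₀] at h1
    exact h1
  rw [hcoe] at hL0
  have h1 := ((htw.zpow s).div (htg.zpow (ℓ : ℤ))).unique hL0
  rw [nsmul_eq_zero_of_dvd hA (dvd_refl _) tg, sub_zero] at h1
  have htw0 : tw = 0 := eq_zero_of_zsmul_eq_zero hℓ hA hℓs h1
  -- `Λ(u) = 0`
  have hcoe2 : (u : LaurentSeries Kbar) = HahnSeries.C c0 * (w : LaurentSeries Kbar) ^ m := by
    have h2 := congrArg (modularFunctionFieldBar N).val huw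
    rw [map_mul, map_zpow₀] at h2
    have h3 : (modularFunctionFieldBar N).val (algebraMap Kbar (FN N) c0) = HahnSeries.C c0 :=
      Fermat.Agent.Lib.Theta.algebraMap_eq_C c0
    rw [h3] at h2
    exact h2
  have h4 := (HasLam.const (A := A) hc0).mul (htw.zpow m)
  rw [← hcoe2, hu, htw0, smul_zero, add_zero] at h4
  exact not_hasLam_uSer_zero hN hℓ h5 hA h4

/-- **K6**: `RCase`. -/
theorem rCase_of (hN : 2 ≤ N) (z : Place Kbar (FN N)) (u : FN N)
    (hu : (u : LaurentSeries Kbar) = uSer N)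
    (hdiv : ∀ v : Place Kbar (FN N), v.ord u = ((N : ℤ) - 1) * (pt z - pt (cInf N)) v)
    (hred : ∀ ℓ : ℕ, ℓ.Prime → 5 ≤ ℓ → ¬ ℓ ∣ N → ∀ A : ValuationSubring Kbar,
      A.LiesOverPrime ℓ → NNIsOne N A) : RCase N z :=
  fun ℓ hℓ h5 hℓN A hA k hk hℓk =>
    rCase_aux hN z u hu hdiv hℓ h5 hA (hred ℓ hℓ h5 hℓN A hA) k hk hℓk

end Fermat.Agent.S15.A

end
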