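/-
S15, block A, node K5 (helper17): the cuspidal class `(0) - (∞)` is nonzero for
`N ∉ {2, 3, 5, 7, 13}`.

If `(0) - (∞) = div f` then `f^(N-1) = c u_N = c q^(1-N) g^24`.  Choose a prime `ℓ` and `24 = E t`
with `ℓ ∤ t`, `E ℓ ∣ N - 1`; with `N - 1 = E n₁`: `f^n₁ = c' q^(-n₁) g^t`, and `Λ` at `ℓ` gives
`0 = n₁ Λ(f) = -n₁ + t Λ(g) = t Λ(g)`, whose coefficient at `q` is `-t ≠ 0`.
-/
import Fermat.Agent.S15.A.Lam.RCase
import Fermat.Agent.S15.A.Lam.Root
import Fermat.Agent.S15.A.Cusp.UNDiv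
import Fermat.Agent.Lib.Frobenius.Exists

set_option autoImplicit false

noncomputable section

namespace Fermat.Agent.S15.A

open ModularCurve AlgebraicCurve Fermat.Agent.S24 Fermat.Agent.S27 Fermat.Agent.S37
open Fermat.Agent.S24.FF

/-- the arithmetic of `N - 1`. -/
theorem exists_prime_split {N : ℕ} (hN : N.Prime) (hN' : N ∉ ({2, 3, 5, 7, 13} : Finset ℕ)) :
    ∃ ℓ E t : ℕ, ℓ.Prime ∧ 24 = E * t ∧ ¬ ℓ ∣ t ∧ E * ℓ ∣ N - 1 := by
  have hN2 := hN.two_le
  have hM0 : N - 1 ≠ 0 := by omega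
  by_cases h16 : 16 ∣ N - 1
  · exact ⟨2, 8, 3, Nat.prime_two, by norm_num, by norm_num, h16⟩
  by_cases h9 : 9 ∣ N - 1
  · exact ⟨3, 3, 8, Nat.prime_three, by norm_num, by norm_num, h9⟩
  obtain ⟨a, M1, h2, hM⟩ := Nat.exists_eq_pow_mul_and_not_dvd hM0 2 (by norm_num)
  have hM10 : M1 ≠ 0 := by
    rintro rfl
    simp at h2
  obtain ⟨b, m, h3, hM1⟩ := Nat.exists_eq_pow_mul_and_not_dvd hM10 3 (by norm_num)
  by_cases hm : m = 1
  · exfalso
    subst hm
    rw [mul_one] at hM1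
    have ha : a < 4 := by
      by_contra hcon
      apply h16
      rw [hM]
      exact Dvd.dvd.mul_right (pow_dvd_pow 2 (by omega : 4 ≤ a)) _
    have hb : b < 2 := by
      by_contra hcon
      apply h9
      rw [hM, hM1]
      exact Dvd.dvd.mul_left (pow_dvd_pow 3 (by omega : 2 ≤ b)) _
    have hNe : N = 2 ^ a * 3 ^ b + 1 := by
      rw [← hM1, ← hM]
      omega
    interval_cases a <;> interval_cases b <;> norm_num at hNe <;> subst hNe <;>
      revert hN hN' <;> decide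
  · have hp := Nat.minFac_prime hm
    have hpm := Nat.minFac_dvd m
    refine ⟨m.minFac, 1, 24, hp, by norm_num, ?_, ?_⟩
    · intro h24
      have h24' : m.minFac ∣ 2 ^ 3 * 3 := by
        norm_num
        exact h24
      rcases (Nat.Prime.dvd_mul hp).1 h24' with h | h
      · have := (Nat.prime_dvd_prime_iff_eq hp Nat.prime_two).1 (hp.dvd_of_dvd_pow h)
        apply h2
        rw [hM1, ← this]
        exact Dvd.dvd.mul_left hpm _
      · have := (Nat.prime_dvd_prime_iff_eq hp Nat.prime_three).1 h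
        apply h3
        rw [← this]
        exact hpm
    · rw [one_mul, hM, hM1]
      exact Dvd.dvd.mul_left (Dvd.dvd.mul_left hpm _) _

variable {N : ℕ} [NeZero N]

/-- the series identity is impossible. -/
theorem false_of_pow_eq (hN : 2 ≤ N) {ℓ E t : ℕ} (hℓ : ℓ.Prime) (hE : 24 = E * t) (ht : ¬ ℓ ∣ t)
    (hd : E * ℓ ∣ N - 1) (f : FN N) (c : Kbar) (hc : c ≠ 0)
    (h : (f : LaurentSeries Kbar) ^ (N - 1) = HahnSeries.C c * uSer N) : False := by
  obtain ⟨n', hn'⟩ := hd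
  obtain ⟨A, hA⟩ := Fermat.Agent.Lib.Frobenius.exists_liesOverPrime ℓ hℓ
  have hE0 : E ≠ 0 := by
    rintro rfl
    simp at hE
  have hEK : (E : Kbar) ≠ 0 := Nat.cast_ne_zero.2 hE0
  have hf : f ≠ 0 := by
    rintro rfl
    have h0 : ((0 : FN N) : LaurentSeries Kbar) = 0 := rfl
    rw [h0, zero_pow (by omega)] at h
    exact mul_ne_zero ((map_ne_zero HahnSeries.C).2 hc) (uSer_ne_zero N) h.symm
  set F : LaurentSeries Kbar := (f : LaurentSeries Kbar) with hF
  set n₁ : ℕ := ℓ * n' with hn₁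
  have hNn : N - 1 = n₁ * E := by
    rw [hn', hn₁]
    ring
  have hpow : (F ^ n₁) ^ E = HahnSeries.C c *
      (HahnSeries.single (-(n₁ : ℤ)) (1 : Kbar) * gK N ^ t) ^ E := by
    rw [← pow_mul, ← hNn, h, uSer, coeffEmb_modularUnitSeries, mul_pow, HahnSeries.single_pow,
      one_pow, ← pow_mul, mul_comm t E, ← hE]
    congr 3
    have : ((N - 1 : ℕ) : ℤ) = (n₁ : ℤ) * E := by exact_mod_cast hNn
    rw [Nat.cast_sub (by omega)] at this
    rw [nsmul_eq_mul]
    push_cast at this ⊢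
    congr 1
    linear_combination -this
  obtain ⟨c', hc', hroot⟩ := exists_const_of_pow_eq (HahnSeries.C : Kbar →+* LaurentSeries Kbar)
    hEK hc hpow
  obtain ⟨tf, htf⟩ := exists_hasLam hℓ hA f hf
  have h1 := htf.pow n₁
  have h2 := (HasLam.const (A := A) hc').mul ((HasLam.single (A := A) (-(n₁ : ℤ))).mul
    ((hasLam_gK N A).pow t))
  rw [← hroot] at h2
  have h3 := h1.unique h2
  have h4 : n₁ • tf = 0 := by
    have := nsmul_eq_zero_of_dvd hA (n := (n₁ : ℤ)) (by rw [hn₁]; push_cast; exact dvd_mul_right _ _) tf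
    rwa [natCast_zsmul] at this
  rw [h4] at h3
  have h5 := congrArg (fun s : LaurentSeries (kk A) => s.coeff 1) h3
  simp only [HahnSeries.coeff_add, HahnSeries.coeff_zero, HahnSeries.coeff_smul,
    (lamG_coeff N A hN).2] at h5
  rw [HahnSeries.C_apply, HahnSeries.coeff_single_of_ne (by norm_num), zero_add, zero_add] at h5
  have h6 : (((t : ℤ)) : kk A) = 0 := by
    have : (t : kk A) = 0 := by
      have h7 : t • (-1 : kk A) = -(t : kk A) := by simp
      rw [h7] at h5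
      exact neg_eq_zero.1 h5.symm
    exact_mod_cast this
  exact intCast_ne_zero_of_not_dvd hℓ hA (n := (t : ℤ)) (by exact_mod_cast ht) h6

theorem IsCusp0.cc_ne_zero {z : Place Kbar (FN N)} (hz : IsCusp0 N z) (hN : N.Prime)
    (hN' : N ∉ ({2, 3, 5, 7, 13} : Finset ℕ)) : cc N z ≠ 0 := by
  intro h0
  have hdeg : Divisor.degree (pt z - pt (cInf N)) = 0 := degree_pt_sub_pt _ _
  rw [cc, cls_eq_zero_iff hdeg] at h0
  obtain ⟨f, hf⟩ := h0
  have h1 := rc_zpow hf ((N - 1 : ℕ) : ℤ)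
  rw [natCast_zsmul, zpow_natCast] at h1
  obtain ⟨c, hc, hfu⟩ := rc_eq_const h1 (hz.isDivOf_uN hN.one_lt)
  obtain ⟨ℓ, E, t, hℓ, hE, ht, hd⟩ := exists_prime_split hN hN'
  refine false_of_pow_eq hN.two_le hℓ hE ht hd f c hc ?_
  have h2 := congrArg (modularFunctionFieldBar N).val hfu
  rw [map_mul, map_pow] at h2
  have h3 : (modularFunctionFieldBar N).val (algebraMap Kbar (FN N) c) = HahnSeries.C c :=
    Fermat.Agent.Lib.Theta.algebraMap_eq_C c
  rw [h3] at h2
  exact h2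

end Fermat.Agent.S15.A

end
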