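/-
S15, block A, node K6 (helper135): `RCase N z` from K3 (`u_N`) and A-RED (`S15/A/Red/Main.lean`).
-/
import Fermat.Agent.S15.A.Lam.RCase
import Fermat.Agent.S15.A.Red.Main

set_option autoImplicit false

noncomputable section

namespace Fermat.Agent.S15.A

open ModularCurve AlgebraicCurve Fermat.Agent.S24 Fermat.Agent.S27 Fermat.Agent.S37

variable {N : ℕ} [NeZero N] {z : Place Kbar (FN N)}

/-- the RED-side input of `RCase`. -/
theorem nnIsOne (hN : N.Prime) (hz : IsCusp0 N z) {ℓ : ℕ} (hℓ : ℓ.Prime) (h5 : 5 ≤ ℓ)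
    (hℓN : ¬ ℓ ∣ N) (A : ValuationSubring Kbar) (hA : A.LiesOverPrime ℓ) : NNIsOne N A := by
  intro D hD f hf
  obtain ⟨Y, ρ, hρ⟩ := Red.exists_pack_five hN hℓ h5 hℓN A hA
  exact hρ.isOne h5 f hf.1 D hf.2 (Red.rho_ND hN hz hρ.geo D hD).1

/-- **K6**: the contract `RCase N z`. -/
theorem rCase (hN : N.Prime) (hz : IsCusp0 N z) (u : FN N)
    (hu : (u : LaurentSeries Kbar) = uSer N)
    (hdiv : ∀ v : Place Kbar (FN N), v.ord u = ((N : ℤ) - 1) * (pt z - pt (cInf N)) v) :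
    RCase N z :=
  rCase_of hN.two_le z u hu hdiv fun _ hℓ h5 hℓN A hA => nnIsOne hN hz hℓ h5 hℓN A hA

end Fermat.Agent.S15.A

end
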