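/-
S15, block A, node K6 (helper135): the contract `RCase N (cusp0 N)`, unconditional.
-/
import Fermat.Agent.S15.A.Lam.RCaseMain
import Fermat.Agent.S15.A.Cusp.UNDiv
import Fermat.Agent.S15.A.Cusp.Only

set_option autoImplicit false

noncomputable section

namespace Fermat.Agent.S15.A

open ModularCurve AlgebraicCurve Fermat.Agent.S24 Fermat.Agent.S27 Fermat.Agent.S37

/-- **K6**: the contract `RCase` for the cusp `0`. -/
theorem rCase_cusp0 (N : ℕ) [NeZero N] (hN : N.Prime) : RCase N (cusp0 N) :=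
  rCase hN (isCusp0_cusp0 N hN) (uN N) (coe_uN N) ((isCusp0_cusp0 N hN).ord_uN_eq hN.one_lt)

end Fermat.Agent.S15.A

end
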